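import Fermat.Agent.FreyUnramified.Local
import Fermat.Prelude.Def_FLTPrelim_Ramification
import Mathlib.Tactic.NormNum.GCD
import Mathlib.Tactic.Positivity

/-!
# The Frey curve representation is unramified at `q ∉ {2, p}`
-/

set_option autoImplicit false

namespace Fermat.Agent.FreyUnramified

open WeierstrassCurve

section IntVal

variable {K : Type*} [Field K] {A : ValuationSubring K} {q : ℕ}

/-- Integers divisible by `q` have valuation below one. -/
lemma valuation_intCast_lt_one (hA : A.LiesOverPrime q) {n : ℤ} (h : (q : ℤ) ∣ n) :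
    A.valuation (n : K) < 1 := by
  obtain ⟨m, rfl⟩ := h
  push_cast
  rw [map_mul]
  exact mul_lt_one_of_nonneg_of_lt_one_left zero_le hA
    ((A.valuation_le_one_iff _).mpr (intCast_mem A m))

/-- Integers prime to `q` are units at `A`. -/
lemma valuation_intCast_eq_one (hA : A.LiesOverPrime q) (hq : q.Prime) {n : ℤ}
    (h : ¬ (q : ℤ) ∣ n) : A.valuation (n : K) = 1 := by
  refine le_antisymm ((A.valuation_le_one_iff _).mpr (intCast_mem A n)) (le_of_not_gt fun hlt => ?_)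
  obtain ⟨u, w, huw⟩ := ((Nat.prime_iff_prime_int.mp hq).coprime_iff_not_dvd).mpr h
  have h1 : A.valuation ((u : K) * (q : K) + (w : K) * (n : K)) < 1 := by
    refine Valuation.map_add_lt _ ?_ ?_ <;> rw [map_mul]
    · exact mul_lt_one_of_nonneg_of_lt_one_right
        ((A.valuation_le_one_iff _).mpr (intCast_mem A u)) zero_le hA
    · exact mul_lt_one_of_nonneg_of_lt_one_right
        ((A.valuation_le_one_iff _).mpr (intCast_mem A w)) zero_le hlt
  have : (u : K) * (q : K) + (w : K) * (n : K) = 1 := by exact_mod_cast congrArg (Int.cast (R := K)) huw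
  rw [this, map_one] at h1
  exact lt_irrefl _ h1

end IntVal

lemma congr_of_mem_inertia {K L : Type*} [Field K] [Field L] [Algebra K L]
    (A : ValuationSubring L) {σ : L ≃ₐ[K] L} (hσ : σ ∈ A.inertiaSubgroupIn K) :
    Congr A (σ.toAlgHom.toRingHom) := by
  obtain ⟨g, hg, rfl⟩ := hσ
  intro x hx
  have h1 : g • (IsLocalRing.residue A ⟨x, hx⟩) = IsLocalRing.residue A ⟨x, hx⟩ := by
    have h := DFunLike.congr_fun (MonoidHom.mem_ker.mp hg) (IsLocalRing.residue A ⟨x, hx⟩)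
    simpa using h
  rw [← IsLocalRing.ResidueField.residue_smul] at h1
  have h2 : g • (⟨x, hx⟩ : A) - ⟨x, hx⟩ ∈ IsLocalRing.maximalIdeal A := by
    rw [← IsLocalRing.residue_eq_zero_iff, map_sub, h1, sub_self]
  exact (A.valuation_lt_one_iff _).mp h2

/-- The mod-`p` representation of the Frey curve is unramified at `q ≠ 2, p`. -/
theorem frey_unramified (P : FreyPackage) {q : ℕ} (hq : q.Prime) (hq2 : q ≠ 2) (hqp : q ≠ P.p) :
    P.GaloisRepUnramifiedAt q := by
  intro A hA σ hσ z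
  let L := AlgebraicClosure ℚ
  let W : Affine L := P.freyCurve⁄L
  have hqI : Prime (q : ℤ) := Nat.prime_iff_prime_int.mp hq
  have hvint : ∀ n : ℤ, ¬ (q : ℤ) ∣ n → A.valuation (n : L) = 1 := fun n h =>
    valuation_intCast_eq_one hA hq h
  have hnd : ∀ n : ℕ, n.Prime → q ≠ n → ¬ (q : ℤ) ∣ (n : ℤ) := fun n hn hne h =>
    hne ((Nat.prime_dvd_prime_iff_eq hq hn).mp (Int.natCast_dvd_natCast.mp h))
  have hpA : A.valuation (P.p : L) = 1 := by
    simpa using hvint P.p (hnd _ P.pp hqp)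
  have h2A : A.valuation (2 : L) = 1 := by
    simpa using hvint 2 (hnd 2 Nat.prime_two hq2)
  have h20 : (2 : L) ≠ 0 := two_ne_zero
  have h4A : A.valuation (4 : L) = 1 := by
    rw [show (4 : L) = 2 * 2 by norm_num, map_mul, h2A, one_mul]
  have hp2 : P.p ≠ 2 := by have := P.hp5; omega
  -- scaled integers
  have hquarter : ∀ n : ℤ, A.valuation ((n : L) / 4) = A.valuation (n : L) := fun n => by
    rw [map_div₀, h4A, div_one]
  have hmem : ∀ n : ℤ, (n : L) / 4 ∈ A := fun n => by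
    rw [← A.valuation_le_one_iff, hquarter]
    exact (A.valuation_le_one_iff _).mpr (intCast_mem A n)
  -- coefficients
  have ha1 : W.a₁ = 1 := map_one _
  have ha3 : W.a₃ = 0 := map_zero _
  have ha6 : W.a₆ = 0 := map_zero _
  have ha2 : W.a₂ = ((P.b : L) ^ P.p - 1 - (P.a : L) ^ P.p) / 4 := by
    simp [W, FreyPackage.freyCurve, WeierstrassCurve.map, WeierstrassCurve.baseChange]
  have ha4 : W.a₄ = -((P.a : L) ^ P.p) * (P.b : L) ^ P.p / 16 := by
    simp [W, FreyPackage.freyCurve, WeierstrassCurve.map, WeierstrassCurve.baseChange]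
    ring
  have hC : (P.c : L) ^ P.p = (P.a : L) ^ P.p + (P.b : L) ^ P.p := by
    exact_mod_cast congrArg (Int.cast (R := L)) P.hFLT.symm
  set α : L := (P.a : L) ^ P.p with hα
  set β : L := (P.b : L) ^ P.p with hβ
  set τ : L →+* L := σ.toAlgHom.toRingHom with hτdef
  have hτint : ∀ n : ℤ, τ (n : L) = n := fun n => map_intCast τ n
  apply Subtype.ext
  show σ • (z.1 : W.Point) = z.1
  by_cases hz0 : (z.1 : W.Point) = 0
  · rw [hz0, smul_zero]
  have hzp : P.p • (z.1 : W.Point) = 0 := by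
    have h := (Submodule.mem_torsionBy_iff _ _).mp z.2
    rwa [natCast_zsmul] at h
  -- the argument, for a given choice of root and ordering of the other two
  suffices hmain : ∃ r e f : L, τ r = r ∧ e ∈ A ∧ f ∈ A ∧
      ((r = 0 ∧ -(e + f) = (β - α) / 4 ∧ e * f = -(α * β) / 16) ∨
        (r = α / 4 ∧ -(e + f) = (2 * α + β) / 4 ∧ e * f = α * (α + β) / 16)) ∧
      ((A.valuation e = 1 ∧ A.valuation f = 1 ∧ A.valuation (e - f) = 1) ∨
        (e ≠ 0 ∧ A.valuation e < 1 ∧ A.valuation f = 1 ∧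
          ∃ a : L, a ≠ 0 ∧ τ a = a ∧ A.valuation e = A.valuation a ^ P.p)) by
    obtain ⟨r, e, f, hr, he, hf, hcoef, hcase⟩ := hmain
    let C : Cubic L W.Point := ofWeierstrass W h20 r (-(e + f)) (e * f)
      (by
        rw [ha1, ha2]
        rcases hcoef with ⟨hr0, h1, -⟩ | ⟨hr0, h1, -⟩ <;> rw [hr0, h1] <;> ring)
      (by
        rw [ha1, ha2, ha3, ha4]
        rcases hcoef with ⟨hr0, -, h1⟩ | ⟨hr0, -, h1⟩ <;> rw [hr0, h1] <;> ring)
      (by
        rw [ha1, ha2, ha3, ha4, ha6]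
        rcases hcoef with ⟨hr0, -, -⟩ | ⟨hr0, -, -⟩ <;> rw [hr0] <;> ring)
    let φ : W.Point →+ W.Point := Affine.Point.map σ.toAlgHom
    have hφ : ∀ Q : W.Point, Q ≠ 0 →
        φ Q ≠ 0 ∧ C.X (φ Q) = τ (C.X Q) ∧ C.Y (φ Q) = τ (C.Y Q) := by
      intro Q hQ
      rcases Q with _ | ⟨x, y, h⟩
      · exact absurd rfl hQ
      refine ⟨Affine.Point.some_ne_zero _, ?_, ?_⟩
      · show τ x - r = τ (x - r)
        rw [map_sub, hr]
      · show τ y + (W.a₁ * τ x + W.a₃) / 2 = τ (y + (W.a₁ * x + W.a₃) / 2)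
        rw [ha1, ha3]
        simp [map_ofNat]
    exact fixed_of_torsion C φ τ P.pp hp2 hpA h2A hφ (congr_of_mem_inertia A hσ) he hf rfl rfl
      hcase hz0 hzp
  have hmema : α / 4 ∈ A := by simpa [hα] using hmem (P.a ^ P.p)
  have hmemb : β / 4 ∈ A := by simpa [hβ] using hmem (P.b ^ P.p)
  have hmemc : (P.c : L) ^ P.p / 4 ∈ A := by simpa using hmem (P.c ^ P.p)
  have hvpow : ∀ n : ℤ, A.valuation ((n : L) ^ P.p / 4) = A.valuation (n : L) ^ P.p := fun n => by
    rw [map_div₀, h4A, div_one, map_pow]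
  have hne0 : ∀ n : ℤ, n ≠ 0 → (n : L) ^ P.p / 4 ≠ 0 := fun n hn =>
    div_ne_zero (pow_ne_zero _ (Int.cast_ne_zero.mpr hn)) (by norm_num)
  have hunit : ∀ n : ℤ, ¬ (q : ℤ) ∣ n → A.valuation ((n : L) ^ P.p / 4) = 1 := fun n hn => by
    rw [hvpow, hvint n hn, one_pow]
  have hsmall : ∀ n : ℤ, (q : ℤ) ∣ n → A.valuation ((n : L) ^ P.p / 4) < 1 := fun n hn => by
    rw [hvpow]
    exact pow_lt_one₀ zero_le (valuation_intCast_lt_one hA hn) P.hp0
  have hcop : ∀ x y : ℤ, gcd x y = 1 → (q : ℤ) ∣ x → ¬ (q : ℤ) ∣ y := fun x y h hx hy =>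
    hqI.not_isUnit (isUnit_of_dvd_one (h ▸ dvd_gcd hx hy))
  by_cases hqa : (q : ℤ) ∣ P.a
  · refine ⟨0, α / 4, -(β / 4), map_zero τ, hmema, neg_mem hmemb,
      Or.inl ⟨rfl, by ring, by ring⟩, Or.inr ⟨hne0 _ P.ha0, hsmall _ hqa, ?_, P.a, ?_, hτint _, hvpow _⟩⟩
    · rw [Valuation.map_neg]; exact hunit _ (hcop _ _ P.hgcdab hqa)
    · exact Int.cast_ne_zero.mpr P.ha0
  by_cases hqb : (q : ℤ) ∣ P.b
  · refine ⟨0, -(β / 4), α / 4, map_zero τ, neg_mem hmemb, hmema,
      Or.inl ⟨rfl, by ring, by ring⟩, Or.inr ⟨neg_ne_zero.mpr (hne0 _ P.hb0), ?_, hunit _ hqa,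
        P.b, ?_, hτint _, ?_⟩⟩
    · rw [Valuation.map_neg]; exact hsmall _ hqb
    · exact Int.cast_ne_zero.mpr P.hb0
    · rw [Valuation.map_neg]; exact hvpow _
  by_cases hqc : (q : ℤ) ∣ P.c
  · refine ⟨α / 4, -((P.c : L) ^ P.p / 4), -(α / 4), ?_, neg_mem hmemc, neg_mem hmema,
      Or.inr ⟨rfl, ?_, ?_⟩, Or.inr ⟨neg_ne_zero.mpr (hne0 _ P.hc0), ?_, ?_, P.c, ?_, hτint _, ?_⟩⟩
    · rw [hα, map_div₀, map_pow, hτint, map_ofNat]
    · rw [hC]; ring
    · rw [hC]; ring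
    · rw [Valuation.map_neg]; exact hsmall _ hqc
    · rw [Valuation.map_neg]; exact hunit _ hqa
    · exact Int.cast_ne_zero.mpr P.hc0
    · rw [Valuation.map_neg]; exact hvpow _
  · refine ⟨0, α / 4, -(β / 4), map_zero τ, hmema, neg_mem hmemb,
      Or.inl ⟨rfl, by ring, by ring⟩, Or.inl ⟨hunit _ hqa, ?_, ?_⟩⟩
    · rw [Valuation.map_neg]; exact hunit _ hqb
    · rw [show α / 4 - -(β / 4) = (P.c : L) ^ P.p / 4 by rw [hC]; ring]
      exact hunit _ hqc

end Fermat.Agent.FreyUnramified
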