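import Mathlib.AlgebraicGeometry.EllipticCurve.Affine.Point
import Mathlib.Tactic.LinearCombination
import Mathlib.Tactic.FieldSimp

/-!
# The curve `Y² = X³ + c₂X² + c₄X` as an abstract group with coordinates

`Cubic` packages exactly the properties of the group law on a Weierstrass curve with a chosen
root of the `2`-division polynomial moved to the origin, which are used in the elementary proof
that inertia acts trivially on prime-to-residue-characteristic torsion.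
-/

set_option autoImplicit false

namespace Fermat.Agent.FreyUnramified

universe u v

/-- A group with coordinates satisfying the chord-tangent rules of `Y² = X³ + c₂X² + c₄X`. -/
structure Cubic (K : Type u) [Field K] (G : Type v) [AddCommGroup G] where
  c2 : K
  c4 : K
  X : G → K
  Y : G → K
  eqn : ∀ P, P ≠ 0 → Y P ^ 2 = X P ^ 3 + c2 * X P ^ 2 + c4 * X P
  X_neg : ∀ P, X (-P) = X P
  Y_neg : ∀ P, Y (-P) = -Y P
  ext : ∀ P Q, P ≠ 0 → Q ≠ 0 → X P = X Q → Y P = Y Q → P = Q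
  add : ∀ P Q, P ≠ 0 → Q ≠ 0 → P + Q ≠ 0 → ∃ L : K,
    L * (X Q - X P) = Y Q - Y P ∧
    L * (Y P + Y Q) = X P ^ 2 + X P * X Q + X Q ^ 2 + c2 * (X P + X Q) + c4 ∧
    X (P + Q) = L ^ 2 - c2 - X P - X Q

namespace Cubic

variable {K : Type u} [Field K] {G : Type v} [AddCommGroup G] (C : Cubic K G)

/-- Two points with the same abscissa are equal or opposite. -/
lemma eq_or_eq_neg {P Q : G} (hP : P ≠ 0) (hQ : Q ≠ 0) (h : C.X P = C.X Q) :
    P = Q ∨ P = -Q := by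
  have hY : C.Y P ^ 2 = C.Y Q ^ 2 := by rw [C.eqn P hP, C.eqn Q hQ, h]
  rcases sq_eq_sq_iff_eq_or_eq_neg.mp hY with hy | hy
  · exact Or.inl (C.ext P Q hP hQ h hy)
  · exact Or.inr (C.ext P (-Q) hP (neg_ne_zero.mpr hQ) (by rw [C.X_neg, h]) (by rw [C.Y_neg, hy]))

/-- Points with different abscissae are not opposite. -/
lemma add_ne_zero_of_X_ne {P Q : G} (h : C.X P ≠ C.X Q) : P + Q ≠ 0 := fun h0 =>
  h (by rw [eq_neg_of_add_eq_zero_left h0, C.X_neg])

/-- Points with different abscissae are different. -/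
lemma sub_ne_zero_of_X_ne {P Q : G} (h : C.X P ≠ C.X Q) : P - Q ≠ 0 := fun h0 =>
  h (by rw [sub_eq_zero.mp h0])

/-- The two candidates `X(P + Q)` and `X(P - Q)`. -/
lemma X_add_sub_sq {P Q : G} (hP : P ≠ 0) (hQ : Q ≠ 0) (h : C.X P ≠ C.X Q) :
    C.X (P + Q) * (C.X Q - C.X P) ^ 2 =
        (C.X P + C.X Q) * (C.X P * C.X Q + C.c4) + 2 * C.c2 * (C.X P * C.X Q)
          - 2 * (C.Y P * C.Y Q) ∧
      C.X (P - Q) * (C.X Q - C.X P) ^ 2 =
        (C.X P + C.X Q) * (C.X P * C.X Q + C.c4) + 2 * C.c2 * (C.X P * C.X Q)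
          + 2 * (C.Y P * C.Y Q) := by
  have e1 := C.eqn P hP
  have e2 := C.eqn Q hQ
  obtain ⟨L, hL, -, hX⟩ := C.add P Q hP hQ (C.add_ne_zero_of_X_ne h)
  obtain ⟨M, hM, -, hX'⟩ := C.add P (-Q) hP (neg_ne_zero.mpr hQ)
    (by simpa [sub_eq_add_neg] using C.sub_ne_zero_of_X_ne h)
  rw [C.X_neg, C.Y_neg] at hM
  rw [C.X_neg, ← sub_eq_add_neg] at hX'
  constructor
  · linear_combination (C.X Q - C.X P) ^ 2 * hX +
      (L * (C.X Q - C.X P) + (C.Y Q - C.Y P)) * hL + e1 + e2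
  · linear_combination (C.X Q - C.X P) ^ 2 * hX' +
      (M * (C.X Q - C.X P) + (-C.Y Q - C.Y P)) * hM + e1 + e2

/-- The sum of `X(P + Q)` and `X(P - Q)`. -/
lemma X_add_add_sub {P Q : G} (hP : P ≠ 0) (hQ : Q ≠ 0) (h : C.X P ≠ C.X Q) :
    (C.X (P + Q) + C.X (P - Q)) * (C.X Q - C.X P) ^ 2 =
      2 * ((C.X P + C.X Q) * (C.X P * C.X Q + C.c4) + 2 * C.c2 * (C.X P * C.X Q)) := by
  obtain ⟨h1, h2⟩ := C.X_add_sub_sq hP hQ h
  linear_combination h1 + h2

/-- The product of `X(P + Q)` and `X(P - Q)`. -/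
lemma X_add_mul_sub {P Q : G} (hP : P ≠ 0) (hQ : Q ≠ 0) (h : C.X P ≠ C.X Q) :
    C.X (P + Q) * C.X (P - Q) * (C.X Q - C.X P) ^ 2 = (C.X P * C.X Q - C.c4) ^ 2 := by
  obtain ⟨h1, h2⟩ := C.X_add_sub_sq hP hQ h
  have e1 := C.eqn P hP
  have e2 := C.eqn Q hQ
  have hd : (C.X Q - C.X P) ^ 2 ≠ 0 := pow_ne_zero 2 (sub_ne_zero.mpr (Ne.symm h))
  apply mul_right_cancel₀ hd
  linear_combination (C.X (P - Q) * (C.X Q - C.X P) ^ 2) * h1 +
      ((C.X P + C.X Q) * (C.X P * C.X Q + C.c4) + 2 * C.c2 * (C.X P * C.X Q)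
          - 2 * (C.Y P * C.Y Q)) * h2 -
      4 * C.Y Q ^ 2 * e1 - 4 * (C.X P ^ 3 + C.c2 * C.X P ^ 2 + C.c4 * C.X P) * e2

/-- Only points killed by `2` have `Y = 0`. -/
lemma Y_ne_zero {P : G} (hP : P ≠ 0) (h2 : P + P ≠ 0) : C.Y P ≠ 0 := fun h =>
  h2 (add_eq_zero_iff_eq_neg.mpr (C.ext P (-P) hP (neg_ne_zero.mpr hP) (C.X_neg P).symm
    (by rw [C.Y_neg, h, neg_zero])))

/-- The duplication formula. -/
lemma X_two_mul {P : G} (hP : P ≠ 0) (h2 : P + P ≠ 0) :
    C.X (P + P) * (4 * C.Y P ^ 2) = (C.X P ^ 2 - C.c4) ^ 2 := by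
  obtain ⟨L, -, hL, hX⟩ := C.add P P hP hP h2
  have e := C.eqn P hP
  linear_combination 4 * C.Y P ^ 2 * hX +
    (L * (2 * C.Y P) + (3 * C.X P ^ 2 + 2 * C.c2 * C.X P + C.c4)) * hL -
    4 * (C.c2 + 2 * C.X P) * e

end Cubic

section OfWeierstrass

open WeierstrassCurve

variable {K : Type u} [Field K] [DecidableEq K] (W : Affine K)

/-- The translated first coordinate (junk value `0` at infinity). -/
def ptX (r : K) : W.Point → K
  | .zero => 0
  | .some x _ _ => x - r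

/-- The completed-square second coordinate (junk value `0` at infinity). -/
def ptY : W.Point → K
  | .zero => 0
  | .some x y _ => y + (W.a₁ * x + W.a₃) / 2

/-- A Weierstrass curve with a root `r` of the `2`-division polynomial gives a `Cubic`. -/
def ofWeierstrass (h2 : (2 : K) ≠ 0) (r c2 c4 : K)
    (hc2 : 4 * c2 = W.a₁ ^ 2 + 4 * W.a₂ + 12 * r)
    (hc4 : 2 * c4 = 2 * W.a₄ + W.a₁ * W.a₃ + r * (W.a₁ ^ 2 + 4 * W.a₂) + 6 * r ^ 2)
    (hc6 : 4 * r ^ 3 + (W.a₁ ^ 2 + 4 * W.a₂) * r ^ 2 + 2 * (2 * W.a₄ + W.a₁ * W.a₃) * r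
      + (W.a₃ ^ 2 + 4 * W.a₆) = 0) :
    Cubic K W.Point where
  c2 := c2
  c4 := c4
  X := ptX W r
  Y := ptY W
  eqn P hP := by
    rcases P with _ | ⟨x, y, h⟩
    · exact absurd rfl hP
    · have he := (Affine.equation_iff x y).mp h.1
      simp only [ptX, ptY]
      have h4 : (4 : K) ≠ 0 := by
        have : (4 : K) = 2 * 2 := by norm_num
        rw [this]; exact mul_ne_zero h2 h2
      apply mul_left_cancel₀ h4
      field_simp
      linear_combination 4 * he - (x - r) ^ 2 * hc2 - 2 * (x - r) * hc4 + hc6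
  X_neg P := by
    rcases P with _ | ⟨x, y, h⟩
    · rfl
    · simp [Affine.Point.neg_some, ptX]
  Y_neg P := by
    rcases P with _ | ⟨x, y, h⟩
    · show ptY W 0 = -ptY W 0
      simp [ptY]
    · simp only [Affine.Point.neg_some, ptY, Affine.negY]
      field_simp
      ring
  ext P Q hP hQ hX hY := by
    rcases P with _ | ⟨x, y, h⟩
    · exact absurd rfl hP
    rcases Q with _ | ⟨x', y', h'⟩
    · exact absurd rfl hQ
    simp only [ptX] at hX
    obtain rfl : x = x' := sub_left_inj.mp hX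
    simp only [ptY] at hY
    obtain rfl : y = y' := add_right_cancel hY
    rfl
  add P Q hP hQ hPQ := by
    rcases P with _ | ⟨x₁, y₁, h₁⟩
    · exact absurd rfl hP
    rcases Q with _ | ⟨x₂, y₂, h₂'⟩
    · exact absurd rfl hQ
    have hxy : ¬(x₁ = x₂ ∧ y₁ = W.negY x₂ y₂) := fun h =>
      hPQ (Affine.Point.add_of_Y_eq h.1 h.2)
    have e₁ := (Affine.equation_iff x₁ y₁).mp h₁.1
    have e₂ := (Affine.equation_iff x₂ y₂).mp h₂'.1
    refine ⟨W.slope x₁ x₂ y₁ y₂ + W.a₁ / 2, ?_⟩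
    rw [Affine.Point.add_some hxy]
    simp only [ptX, ptY]
    by_cases hx : x₁ = x₂
    · subst hx
      have hy : y₁ ≠ W.negY x₁ y₂ := fun h => hxy ⟨rfl, h⟩
      obtain rfl : y₁ = y₂ := Affine.Y_eq_of_Y_ne h₁.1 h₂'.1 rfl hy
      have hs : W.slope x₁ x₁ y₁ y₁ * (y₁ - W.negY x₁ y₁) =
          3 * x₁ ^ 2 + 2 * W.a₂ * x₁ + W.a₄ - W.a₁ * y₁ := by
        rw [Affine.slope_of_Y_ne rfl hy, div_mul_cancel₀ _ (sub_ne_zero.mpr hy)]
      simp only [Affine.negY] at hs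
      refine ⟨by ring, ?_, ?_⟩
      · have h4 : (4 : K) ≠ 0 := by
          have : (4 : K) = 2 * 2 := by norm_num
          rw [this]; exact mul_ne_zero h2 h2
        apply mul_left_cancel₀ h4
        field_simp
        linear_combination 4 * hs - 2 * (x₁ - r) * hc2 - 2 * hc4
      · simp only [Affine.addX]
        field_simp
        linear_combination hc2
    · have hd : x₁ - x₂ ≠ 0 := sub_ne_zero.mpr hx
      have hs : W.slope x₁ x₂ y₁ y₂ * (x₁ - x₂) = y₁ - y₂ := by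
        rw [Affine.slope_of_X_ne hx, div_mul_cancel₀ _ hd]
      refine ⟨?_, ?_, ?_⟩
      · field_simp
        linear_combination -2 * hs
      · have h4 : (4 : K) ≠ 0 := by
          have : (4 : K) = 2 * 2 := by norm_num
          rw [this]; exact mul_ne_zero h2 h2
        have g₁ : (2 * y₁ + (W.a₁ * x₁ + W.a₃)) ^ 2 =
            4 * ((x₁ - r) ^ 3 + c2 * (x₁ - r) ^ 2 + c4 * (x₁ - r)) := by
          linear_combination 4 * e₁ - (x₁ - r) ^ 2 * hc2 - 2 * (x₁ - r) * hc4 + hc6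
        have g₂ : (2 * y₂ + (W.a₁ * x₂ + W.a₃)) ^ 2 =
            4 * ((x₂ - r) ^ 3 + c2 * (x₂ - r) ^ 2 + c4 * (x₂ - r)) := by
          linear_combination 4 * e₂ - (x₂ - r) ^ 2 * hc2 - 2 * (x₂ - r) * hc4 + hc6
        set s := W.slope x₁ x₂ y₁ y₂
        have hY₁ : y₁ + (W.a₁ * x₁ + W.a₃) / 2 = (2 * y₁ + (W.a₁ * x₁ + W.a₃)) / 2 := by
          field_simp
        have hY₂ : y₂ + (W.a₁ * x₂ + W.a₃) / 2 = (2 * y₂ + (W.a₁ * x₂ + W.a₃)) / 2 := by
          field_simp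
        have hs' : (2 * s + W.a₁) * (x₁ - x₂) =
            (2 * y₁ + (W.a₁ * x₁ + W.a₃)) - (2 * y₂ + (W.a₁ * x₂ + W.a₃)) := by
          linear_combination 2 * hs
        have key : (2 * s + W.a₁) * ((2 * y₁ + (W.a₁ * x₁ + W.a₃)) + (2 * y₂ + (W.a₁ * x₂ + W.a₃)))
            = 4 * ((x₁ - r) ^ 2 + (x₁ - r) * (x₂ - r) + (x₂ - r) ^ 2
              + c2 * ((x₁ - r) + (x₂ - r)) + c4) := by
          apply mul_left_cancel₀ hd
          linear_combination ((2 * y₁ + (W.a₁ * x₁ + W.a₃)) + (2 * y₂ + (W.a₁ * x₂ + W.a₃))) * hs'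
            + g₁ - g₂
        rw [hY₁, hY₂]
        apply mul_left_cancel₀ h4
        field_simp
        linear_combination key
      · simp only [Affine.addX]
        field_simp
        linear_combination hc2

end OfWeierstrass

end Fermat.Agent.FreyUnramified
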