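import Mathlib.Algebra.Order.Group.Defs
import Mathlib.Algebra.Order.Group.Basic
import Mathlib.Algebra.Module.NatInt
import Mathlib.Tactic.Module
import Mathlib.Tactic.Abel

/-!
# The component recursion

If a sequence in a linearly ordered abelian group satisfies the rules obeyed by the valuations of
the abscissae of the multiples of a `p`-torsion point on a nodal fibre of length `2d`, then
`p • b ∈ 2ℤ • d`.
-/

set_option autoImplicit false

namespace Fermat.Agent.FreyUnramified

universe u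

variable {Γ : Type u} [AddCommGroup Γ] [LinearOrder Γ] [IsOrderedAddMonoid Γ]

/-- The valuation `b` of the abscissa of a `p`-torsion point on a nodal fibre of length `2d`
satisfies `p • b ∈ 2ℤ • d`. -/
lemma component_recursion (p : ℕ) (hp : 3 ≤ p) (b d : Γ) (f : ℕ → Γ)
    (hpos : ∀ k, 1 ≤ k → k < p → 0 < f k ∧ f k < d)
    (h1 : f 1 = b) (hlast : f (p - 1) = b)
    (hdbl : ∃ g : Γ, f 2 = g + g - (b + b) ∧ (b + b < d → g = b + b) ∧ (d < b + b → g = d) ∧
      (b + b = d → d ≤ g))
    (hstep : ∀ k, 2 ≤ k → k + 2 ≤ p → ∃ g h : Γ, f (k + 1) + f (k - 1) = g + g - (h + h) ∧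
      (f k + b < d → g = f k + b) ∧ (d < f k + b → g = d) ∧ (f k + b = d → d ≤ g) ∧
      (f k < b → h = f k) ∧ (b < f k → h = b) ∧ (f k = b → b ≤ h)) :
    ∃ m : ℤ, (p : ℤ) • b = (m + m) • d := by
  obtain ⟨hb0, hbd⟩ : 0 < b ∧ b < d := h1 ▸ hpos 1 le_rfl (by omega)
  -- the invariant
  have key : ∀ k, 2 ≤ k → k + 1 ≤ p → ∃ (m : ℤ) (s t : Γ), s = (k : ℤ) • b + (m + m) • d ∧
      (f k = s ∨ f k = -s) ∧ (f (k - 1) = t ∨ f (k - 1) = -t) ∧
      -d < s ∧ s < d ∧ -d < t ∧ t < d ∧ (s = t + b ∨ s + d + d = t + b) := by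
    intro k hk
    induction k, hk using Nat.le_induction with
    | base =>
      intro _
      obtain ⟨g, hg, hlt, hgt, heq⟩ := hdbl
      obtain ⟨hf0, hfd⟩ := hpos 2 (by omega) (by omega)
      rcases lt_trichotomy (b + b) d with h | h | h
      · have := hlt h
        refine ⟨0, b + b, b, by module, ?_, Or.inl h1, ?_, h, ?_, hbd, Or.inl rfl⟩ <;>
          grind
      · have := heq h
        exfalso
        grind
      · have := hgt h
        refine ⟨-1, b + b - (d + d), b, by module, ?_, Or.inl h1, ?_, ?_, ?_, hbd, Or.inr ?_⟩ <;>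
          grind
    | succ k hk ih =>
      intro hkp
      obtain ⟨m, s, t, hs, hfs, hft, hs1, hs2, ht1, ht2, hst⟩ := ih (by omega)
      obtain ⟨g, h, hgh, hg1, hg2, hg3, hh1, hh2, hh3⟩ := hstep k hk (by omega)
      obtain ⟨ha0, had⟩ := hpos k (by omega) (by omega)
      obtain ⟨hc0, hcd⟩ := hpos (k - 1) (by omega) (by omega)
      obtain ⟨hf0, hfd⟩ := hpos (k + 1) (by omega) (by omega)
      have hks : ((k + 1 : ℕ) : ℤ) • b = (k : ℤ) • b + b := by
        push_cast; module
      rcases lt_or_ge (s + b) d with hlt | hge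
      · refine ⟨m, s + b, s, ?_, ?_, ?_, ?_, hlt, hs1, hs2, Or.inl rfl⟩
        · rw [hks, hs]; abel
        · grind
        · simpa using hfs
        · grind
      · refine ⟨m - 1, s + b - (d + d), s, ?_, ?_, ?_, ?_, ?_, hs1, hs2, Or.inr ?_⟩
        · rw [hks, hs]; module
        · grind
        · simpa using hfs
        · grind
        · grind
        · abel
  obtain ⟨m, s, t, hs, hfs, hft, hs1, hs2, ht1, ht2, hst⟩ := key (p - 1) (by omega) (by omega)
  obtain ⟨hc0, hcd⟩ := hpos (p - 1 - 1) (by omega) (by omega)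
  have hsb : s = -b := by grind
  refine ⟨-m, ?_⟩
  have hp' : ((p - 1 : ℕ) : ℤ) • b = (p : ℤ) • b - b := by
    rw [Nat.cast_sub (by omega)]; module
  rw [hp', hsb] at hs
  have h2 : (p : ℤ) • b + (m + m) • d = 0 := by
    rw [← sub_eq_zero] at hs
    rw [← neg_eq_zero]
    rw [← hs]
    abel
  rw [eq_neg_of_add_eq_zero_left h2]
  module

end Fermat.Agent.FreyUnramified
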