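import Fermat.Agent.FreyUnramified.Cubic
import Fermat.Agent.FreyUnramified.Recursion
import Mathlib.RingTheory.Valuation.ValuationSubring
import Mathlib.Algebra.Order.Monoid.Unbundled.TypeTags
import Mathlib.Algebra.Order.Group.Units
import Mathlib.RingTheory.Coprime.Lemmas

/-!
# Inertia fixes prime-to-`q` torsion on curves with good or `p`-divisible nodal reduction
-/

set_option autoImplicit false

namespace Fermat.Agent.FreyUnramified

universe u v

variable {K : Type u} [Field K]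

section Ord

variable (A : ValuationSubring K)

/-- Additively written, order-reversed valuation (junk value `0` at `0`). -/
noncomputable def ordA (x : K) : Additive (A.ValueGroup)ˣ :=
  open Classical in
  if h : A.valuation x = 0 then 0 else Additive.ofMul (Units.mk0 (A.valuation x) h)⁻¹

variable {A}

lemma ordA_def {x : K} (hx : x ≠ 0) :
    ordA A x = Additive.ofMul (Units.mk0 (A.valuation x) ((map_ne_zero _).mpr hx))⁻¹ :=
  dif_neg ((map_ne_zero _).mpr hx)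

/-- `ordA` is additive on products. -/
lemma ordA_mul {x y : K} (hx : x ≠ 0) (hy : y ≠ 0) :
    ordA A (x * y) = ordA A x + ordA A y := by
  rw [ordA_def hx, ordA_def hy, ordA_def (mul_ne_zero hx hy), ← ofMul_mul, ← mul_inv]
  congr 2
  ext
  simp

/-- `ordA` reverses the order of valuations. -/
lemma ordA_lt_ordA {x y : K} (hx : x ≠ 0) (hy : y ≠ 0) :
    ordA A x < ordA A y ↔ A.valuation y < A.valuation x := by
  rw [ordA_def hx, ordA_def hy, Additive.ofMul_lt, inv_lt_inv_iff, ← Units.val_lt_val]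
  simp

/-- `ordA` reverses the order of valuations. -/
lemma ordA_le_ordA {x y : K} (hx : x ≠ 0) (hy : y ≠ 0) :
    ordA A x ≤ ordA A y ↔ A.valuation y ≤ A.valuation x := by
  rw [← not_lt, ← not_lt, ordA_lt_ordA hy hx]

/-- `ordA` determines the valuation. -/
lemma ordA_eq_ordA {x y : K} (hx : x ≠ 0) (hy : y ≠ 0) :
    ordA A x = ordA A y ↔ A.valuation x = A.valuation y := by
  rw [le_antisymm_iff, ordA_le_ordA hx hy, ordA_le_ordA hy hx, ← le_antisymm_iff, eq_comm]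

lemma ordA_one : ordA A (1 : K) = 0 := by
  have h := ordA_mul (A := A) (one_ne_zero (α := K)) one_ne_zero
  rw [mul_one] at h
  exact left_eq_add.mp h

lemma ordA_inv {x : K} (hx : x ≠ 0) : ordA A x⁻¹ = -ordA A x := by
  apply eq_neg_of_add_eq_zero_left
  rw [← ordA_mul (inv_ne_zero hx) hx, inv_mul_cancel₀ hx, ordA_one]

/-- The order of a difference: the smaller order if they differ, at least the common one if not. -/
lemma ordA_sub_cases {z w : K} (hz : z ≠ 0) (hw : w ≠ 0) (hzw : z - w ≠ 0) :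
    (ordA A z < ordA A w → ordA A (z - w) = ordA A z) ∧
      (ordA A w < ordA A z → ordA A (z - w) = ordA A w) ∧
      (ordA A z = ordA A w → ordA A w ≤ ordA A (z - w)) := by
  refine ⟨fun h => ?_, fun h => ?_, fun h => ?_⟩
  · rw [ordA_eq_ordA hzw hz]
    exact Valuation.map_sub_eq_of_lt_left _ ((ordA_lt_ordA hz hw).mp h)
  · rw [ordA_eq_ordA hzw hw]
    exact Valuation.map_sub_eq_of_lt_right _ ((ordA_lt_ordA hw hz).mp h)
  · rw [ordA_le_ordA hw hzw]
    exact Valuation.map_sub_le _ ((ordA_eq_ordA hz hw).mp h).le le_rfl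

lemma ordA_zpow {x : K} (hx : x ≠ 0) (m : ℤ) : ordA A (x ^ m) = m • ordA A x := by
  induction m using Int.induction_on with
  | zero => simp [ordA_one]
  | succ n ih => rw [zpow_add_one₀ hx, ordA_mul (zpow_ne_zero _ hx) hx, ih, add_smul, one_smul]
  | pred n ih =>
    rw [zpow_sub_one₀ hx, ordA_mul (zpow_ne_zero _ hx) (inv_ne_zero hx), ih, ordA_inv hx,
      sub_smul, one_smul, sub_eq_add_neg]

end Ord

section Congr

variable {A : ValuationSubring K}

local notation "v" => ValuationSubring.valuation A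

/-- `τ` acts trivially on the residue field of `A`. -/
def Congr (A : ValuationSubring K) (τ : K →+* K) : Prop :=
  ∀ x ∈ A, A.valuation (τ x - x) < 1

/-- If `v x ≤ v π` with `π` fixed by `τ`, then `τ x - x` is smaller than `π`. -/
lemma Congr.lt_of_fixed_scale {τ : K →+* K} (hτ : Congr A τ) {π x : K} (hπ : π ≠ 0)
    (hfix : τ π = π) (hx : v x ≤ v π) : v (τ x - x) < v π := by
  have hπ0 : 0 < v π := (zero_lt_iff).mpr ((map_ne_zero _).mpr hπ)
  have hu : x / π ∈ A := by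
    rw [← A.valuation_le_one_iff, map_div₀]
    exact (div_le_one₀ hπ0).mpr hx
  have h := hτ _ hu
  rw [map_div₀, hfix, ← sub_div, map_div₀, div_lt_one₀ hπ0] at h
  exact h

end Congr

section Torsion

variable {G : Type v} [AddCommGroup G] {p : ℕ}

/-- Multiples prime to `p` of a point of order `p` are nonzero. -/
lemma smul_ne_zero_of_prime (hp : p.Prime) {P : G} (hP : P ≠ 0) (hPp : p • P = 0) (k : ℤ)
    (hk : ¬ (p : ℤ) ∣ k) : k • P ≠ 0 := by
  intro h
  obtain ⟨a, b, hab⟩ := ((Nat.prime_iff_prime_int.mp hp).coprime_iff_not_dvd).mpr hk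
  apply hP
  calc P = (1 : ℤ) • P := (one_zsmul P).symm
    _ = a • ((p : ℤ) • P) + b • (k • P) := by rw [← hab, add_smul, mul_smul, mul_smul]
    _ = 0 := by rw [natCast_zsmul, hPp, h, zsmul_zero, zsmul_zero, add_zero]

/-- The first `p - 1` multiples of a point of order `p` are nonzero. -/
lemma nsmul_ne_zero_of_lt (hp : p.Prime) {P : G} (hP : P ≠ 0) (hPp : p • P = 0) {k : ℕ}
    (hk0 : 0 < k) (hk : k < p) : k • P ≠ 0 := by
  rw [← natCast_zsmul]
  refine smul_ne_zero_of_prime hp hP hPp _ fun h => ?_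
  exact absurd (Int.le_of_dvd (by omega) h) (by omega)

lemma fixed_of_nsmul_fixed (hp : p.Prime) {P : G} (hPp : p • P = 0) (σ : G →+ G) {k : ℕ}
    (hk0 : 0 < k) (hk : k < p) (h : σ (k • P) = k • P) : σ P = P := by
  by_contra hne
  have h0 : σ P - P ≠ 0 := sub_ne_zero.mpr hne
  have hp0 : p • (σ P - P) = 0 := by rw [nsmul_sub, ← map_nsmul, hPp, map_zero, sub_zero]
  apply nsmul_ne_zero_of_lt hp h0 hp0 hk0 hk
  rw [nsmul_sub, ← map_nsmul, h, sub_self]

end Torsion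

variable {G : Type v} [AddCommGroup G] {p : ℕ} (C : Cubic K G) {A : ValuationSubring K}

local notation "v" => ValuationSubring.valuation A

/-- `k • P` and `P` have different abscissae for `2 ≤ k ≤ p - 2`. -/
lemma X_ne_of_ne (hp : p.Prime) {P : G} (hP : P ≠ 0) (hPp : p • P = 0) {k : ℕ} (hk1 : 2 ≤ k)
    (hk : k + 2 ≤ p) : C.X (k • P) ≠ C.X P := by
  intro h
  rcases C.eq_or_eq_neg (nsmul_ne_zero_of_lt hp hP hPp (by omega) (by omega)) hP h with h | h
  · refine nsmul_ne_zero_of_lt hp hP hPp (k := k - 1) (by omega) (by omega) ?_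
    have : k • P = (k - 1) • P + P := by rw [← succ_nsmul]; congr 1; omega
    rw [this] at h
    exact add_eq_right.mp h
  · refine nsmul_ne_zero_of_lt hp hP hPp (k := k + 1) (by omega) (by omega) ?_
    rw [succ_nsmul, h, neg_add_cancel]

lemma valuation_one_sub_mul_mul {c t U : K} (hc : c ∈ A) (ht : t ∈ A) (hU : v U < 1) :
    v (1 - c * t * U) = 1 := by
  refine Valuation.map_one_sub_of_lt _ ?_
  rw [map_mul]
  exact mul_lt_one_of_nonneg_of_lt_one_right
    ((A.valuation_le_one_iff _).mpr (mul_mem hc ht)) zero_le hU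

/-- `X(k • P)⁻¹ ≡ k² X(P)⁻¹` modulo `X(P)⁻² A`: the expansion of `k • P` near the origin. -/
def InvXExpansion (A : ValuationSubring K) (P : G) (k : ℕ) : Prop :=
  k • P ≠ 0 ∧ C.X (k • P) ≠ 0 ∧
    ∃ t ∈ A, (C.X (k • P))⁻¹ = (k : K) ^ 2 * (C.X P)⁻¹ + (C.X P)⁻¹ ^ 2 * t

/-- The duplication formula gives the expansion of `2 • P` near the origin. -/
lemma invXExpansion_two (hc2 : C.c2 ∈ A) (hc4 : C.c4 ∈ A) {P : G} (hP : P ≠ 0) (h2ne : P + P ≠ 0)
    (hx0 : C.X P ≠ 0) (hU : v (C.X P)⁻¹ < 1) : InvXExpansion C A P 2 := by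
  unfold InvXExpansion
  set x := C.X P with hxdef
  set U := x⁻¹ with hUdef
  have hUA : U ∈ A := (A.valuation_le_one_iff _).mp hU.le
  have hU0 : U ≠ 0 := inv_ne_zero hx0
  have e := C.X_two_mul hP h2ne
  rw [C.eqn P hP, ← hxdef] at e
  have hden : v (1 - C.c4 * U * U) = 1 := valuation_one_sub_mul_mul hc4 hUA hU
  have hden0 : (1 - C.c4 * U * U) ≠ 0 := fun h0 => by simp [h0] at hden
  have hnum : x ^ 2 - C.c4 ≠ 0 := by
    intro h0
    apply hden0
    rw [hUdef]; field_simp; linear_combination h0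
  have hX2 : C.X (2 • P) ≠ 0 := by
    rw [two_nsmul]; intro h0
    rw [h0, zero_mul] at e
    exact pow_ne_zero 2 hnum e.symm
  have hinvA : ((1 - C.c4 * U * U) ^ 2)⁻¹ ∈ A := by
    rw [← A.valuation_le_one_iff, map_inv₀, map_pow, hden, one_pow, inv_one]
  refine ⟨by rw [two_nsmul]; exact h2ne, hX2,
    4 * (C.c2 + 3 * C.c4 * U - C.c4 ^ 2 * U ^ 3) * ((1 - C.c4 * U * U) ^ 2)⁻¹, ?_, ?_⟩
  · refine mul_mem (mul_mem (natCast_mem A 4) ?_) hinvA
    exact sub_mem (add_mem hc2 (mul_mem (mul_mem (natCast_mem A 3) hc4) hUA))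
      (mul_mem (pow_mem hc4 2) (pow_mem hUA 3))
  · rw [two_nsmul] at hX2 ⊢
    have hxU : x = U⁻¹ := by rw [hUdef, inv_inv]
    rw [hxU] at e
    generalize C.X (P + P) = z at e hX2 ⊢
    have hden2 := pow_ne_zero 2 hden0
    have hz : z⁻¹ = 4 * U * (1 + U * C.c2 + U ^ 2 * C.c4) / (1 - C.c4 * U * U) ^ 2 := by
      rw [eq_div_iff hden2]
      field_simp at e ⊢
      linear_combination -e
    rw [hz, show (((2 : ℕ) : K)) = 2 from by norm_num, div_eq_iff hden2, add_mul,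
      mul_assoc (U ^ 2), inv_mul_cancel_right₀ hden2]
    ring

/-- The addition formulas pass the expansion from `k - 1` and `k` to `k + 1`. -/
lemma invXExpansion_succ (hc2 : C.c2 ∈ A) (hc4 : C.c4 ∈ A) {P : G} (hP : P ≠ 0)
    (hx0 : C.X P ≠ 0) (hU : v (C.X P)⁻¹ < 1) {k : ℕ} (hk : 1 ≤ k) (hk1 : (k + 1) • P ≠ 0)
    (hne : C.X (k • P) ≠ C.X P) (h : InvXExpansion C A P k) (h' : InvXExpansion C A P (k - 1)) :
    InvXExpansion C A P (k + 1) := by
  unfold InvXExpansion at *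
  obtain ⟨hk0, hkX, t, ht, hkt⟩ := h
  obtain ⟨-, hlX, t', ht', hlt⟩ := h'
  set x := C.X P with hxdef
  set U := x⁻¹ with hUdef
  have hUA : U ∈ A := (A.valuation_le_one_iff _).mp hU.le
  have hU0 : U ≠ 0 := inv_ne_zero hx0
  have eplus : k • P + P = (k + 1) • P := (succ_nsmul P k).symm
  have eminus : k • P - P = (k - 1) • P := by
    rw [sub_eq_iff_eq_add, ← succ_nsmul]; congr 1; omega
  have es := C.X_add_add_sub hk0 hP hne
  have ep := C.X_add_mul_sub hk0 hP hne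
  rw [eplus, eminus, ← hxdef] at es ep
  set s := (k : K) ^ 2 + U * t with hs
  have hsA : s ∈ A := add_mem (pow_mem (natCast_mem A k) 2) (mul_mem hUA ht)
  have hu : C.X (k • P) = (s * U)⁻¹ := by
    rw [← inv_inv (C.X (k • P)), hkt, hs]; congr 1; ring
  have hs0 : s ≠ 0 := by
    intro h0; rw [h0] at hu; simp at hu; exact hkX hu
  have hden : v (1 - C.c4 * (s * U) * U) = 1 := valuation_one_sub_mul_mul hc4 (mul_mem hsA hUA) hU
  have hden0 : (1 - C.c4 * (s * U) * U) ≠ 0 := fun h0 => by simp [h0] at hden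
  have hnum : C.X (k • P) * x - C.c4 ≠ 0 := by
    intro h0
    apply hden0
    rw [hu] at h0
    rw [hUdef] at h0 ⊢
    field_simp at h0 ⊢
    linear_combination h0
  have hnx : C.X ((k + 1) • P) ≠ 0 := by
    intro h0
    rw [h0, zero_mul, zero_mul] at ep
    exact pow_ne_zero 2 hnum ep.symm
  have hinvA : ((1 - C.c4 * (s * U) * U) ^ 2)⁻¹ ∈ A := by
    rw [← A.valuation_le_one_iff, map_inv₀, map_pow, hden, one_pow, inv_one]
  refine ⟨hk1, hnx,
    2 * t - t' + 2 * ((s + 1) * C.c4 * s * U + 2 * C.c2 * s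
      + (s + 1) * (2 * C.c4 * s * U - C.c4 ^ 2 * s ^ 2 * U ^ 3))
      * ((1 - C.c4 * (s * U) * U) ^ 2)⁻¹, ?_, ?_⟩
  · have two : (2 : K) ∈ A := natCast_mem A 2
    refine add_mem (sub_mem (mul_mem two ht) ht') (mul_mem (mul_mem two ?_) hinvA)
    refine add_mem (add_mem ?_ ?_) (mul_mem (add_mem hsA A.one_mem) (sub_mem ?_ ?_))
    · exact mul_mem (mul_mem (mul_mem (add_mem hsA A.one_mem) hc4) hsA) hUA
    · exact mul_mem (mul_mem two hc2) hsA
    · exact mul_mem (mul_mem (mul_mem two hc4) hsA) hUA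
    · exact mul_mem (mul_mem (pow_mem hc4 2) (pow_mem hsA 2)) (pow_mem hUA 3)
  · have hd : x - C.X (k • P) ≠ 0 := sub_ne_zero.mpr (Ne.symm hne)
    -- sum of the inverses
    have hsum : (C.X ((k + 1) • P))⁻¹ + (C.X ((k - 1) • P))⁻¹ =
        2 * ((C.X (k • P) + x) * (C.X (k • P) * x + C.c4) + 2 * C.c2 * (C.X (k • P) * x))
          / (C.X (k • P) * x - C.c4) ^ 2 := by
      rw [eq_div_iff (pow_ne_zero 2 hnum)]
      field_simp
      linear_combination (C.X ((k + 1) • P) * C.X ((k - 1) • P)) * es -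
        (C.X ((k + 1) • P) + C.X ((k - 1) • P)) * ep
    have hw : (C.X ((k + 1) • P))⁻¹ = 2 * U * ((s + 1) * (1 + C.c4 * (s * U) * U)
        + 2 * C.c2 * s * U) / (1 - C.c4 * (s * U) * U) ^ 2
        - ((((k - 1 : ℕ)) : K) ^ 2 * U + U ^ 2 * t') := by
      rw [← hlt, eq_sub_iff_add_eq, hsum, hu,
        show x = U⁻¹ by rw [hUdef, inv_inv]]
      have hsU := mul_ne_zero hs0 hU0
      rw [hu, show x = U⁻¹ by rw [hUdef, inv_inv]] at hnum
      rw [div_eq_div_iff (pow_ne_zero 2 hnum) (pow_ne_zero 2 hden0)]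
      field_simp
      ring
    rw [hw, Nat.cast_sub (by omega : 1 ≤ k)]
    have hden2 := pow_ne_zero 2 hden0
    have hi := inv_mul_cancel₀ hden2
    rw [div_eq_mul_inv]
    push_cast
    linear_combination (2 * U * (s + 1)) * hi + 2 * U * hs

/-- There is no nonzero `p`-torsion in the kernel of reduction when `p` is a unit. -/
theorem X_mem_of_torsion (hp : p.Prime) (hp2 : p ≠ 2) (hpA : v (p : K) = 1)
    (hc2 : C.c2 ∈ A) (hc4 : C.c4 ∈ A) {P : G} (hP : P ≠ 0) (hPp : p • P = 0) :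
    C.X P ∈ A := by
  by_contra hx
  obtain ⟨h, hh⟩ : Odd p := hp.odd_of_ne_two hp2
  have h1 : 1 ≤ h := by have := hp.two_le; omega
  have hx0 : C.X P ≠ 0 := fun h0 => hx (h0 ▸ A.zero_mem)
  have hU : v (C.X P)⁻¹ < 1 := by
    rw [map_inv₀]
    exact inv_lt_one_of_one_lt₀ (lt_of_not_ge fun hle => hx ((A.valuation_le_one_iff _).mp hle))
  have key : ∀ k, 2 ≤ k → k ≤ h + 1 →
      InvXExpansion C A P k ∧ InvXExpansion C A P (k - 1) := by
    intro k hk
    induction k, hk using Nat.le_induction with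
    | base =>
      refine fun _ => ⟨invXExpansion_two C hc2 hc4 hP ?_ hx0 hU, ?_⟩
      · rw [← two_nsmul]; exact nsmul_ne_zero_of_lt hp hP hPp (by omega) (by omega)
      · exact ⟨by rwa [one_nsmul], by rwa [one_nsmul], 0, A.zero_mem, by simp⟩
    | succ k hk ih =>
      intro hle
      obtain ⟨a, b⟩ := ih (by omega)
      exact ⟨invXExpansion_succ C hc2 hc4 hP hx0 hU (by omega)
        (nsmul_ne_zero_of_lt hp hP hPp (by omega) (by omega))
        (X_ne_of_ne C hp hP hPp hk (by omega)) a b, by simpa using a⟩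
  obtain ⟨⟨-, -, t, ht, e1⟩, ⟨-, -, t', ht', e2⟩⟩ := key (h + 1) (by omega) le_rfl
  rw [Nat.add_sub_cancel] at e2
  have hXeq : C.X ((h + 1) • P) = C.X (h • P) := by
    have : (h + 1) • P = -(h • P) := eq_neg_of_add_eq_zero_left (by
      rw [← add_nsmul, show h + 1 + h = p by omega, hPp])
    rw [this, C.X_neg]
  rw [hXeq, e2] at e1
  have hp' : (p : K) = (C.X P)⁻¹ * (t' - t) := by
    apply mul_left_cancel₀ (inv_ne_zero hx0)
    rw [hh]
    push_cast at e1 ⊢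
    linear_combination -e1
  have hlt1 : v (p : K) < 1 := by
    rw [hp', map_mul]
    exact mul_lt_one_of_nonneg_of_lt_one_left zero_le hU
      ((A.valuation_le_one_iff _).mpr (sub_mem ht' ht))
  exact hlt1.ne hpA

lemma Y_mem (hc2 : C.c2 ∈ A) (hc4 : C.c4 ∈ A) {P : G} (hP : P ≠ 0) (hX : C.X P ∈ A) :
    C.Y P ∈ A := by
  rw [← A.valuation_le_one_iff]
  refine (pow_le_one_iff_of_nonneg zero_le two_ne_zero).mp ?_
  rw [← map_pow, C.eqn P hP, A.valuation_le_one_iff]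
  exact add_mem (add_mem (pow_mem hX 3) (mul_mem hc2 (pow_mem hX 2))) (mul_mem hc4 hX)

lemma valuation_root_cases {e f : K} (hc2 : C.c2 = -(e + f)) (hc4 : C.c4 = e * f)
    {P : G} (hP : P ≠ 0) :
    v (C.Y P) ^ 2 = v (C.X P) * v (C.X P - e) * v (C.X P - f) := by
  rw [← map_pow, ← map_mul, ← map_mul, C.eqn P hP, hc2, hc4]
  congr 1; ring

section Main

variable (σ : G →+ G) (τ : K →+* K)

/-- The slope through `-P` and `σ P` is not integral, so `σ P - P` reduces to the origin. -/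
lemma fixed_of_slope (hp : p.Prime) (hp2 : p ≠ 2) (hpA : v (p : K) = 1)
    (hσ : ∀ Q, Q ≠ 0 → σ Q ≠ 0 ∧ C.X (σ Q) = τ (C.X Q) ∧ C.Y (σ Q) = τ (C.Y Q))
    (hc2 : C.c2 ∈ A) (hc4 : C.c4 ∈ A) {P : G} (hP : P ≠ 0) (hPp : p • P = 0)
    (hX : C.X P ∈ A) (hτX : τ (C.X P) ∈ A)
    (hbig : v (τ (C.X P) - C.X P) < v (τ (C.Y P) + C.Y P) ∨
      v (τ (C.Y P) - C.Y P) < v (C.X P ^ 2 + C.X P * τ (C.X P) + τ (C.X P) ^ 2
        + C.c2 * (C.X P + τ (C.X P)) + C.c4)) :
    σ P = P := by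
  by_contra hne
  obtain ⟨hσ0, hσX, hσY⟩ := hσ P hP
  have hD : -P + σ P ≠ 0 := by rwa [neg_add_eq_sub, sub_ne_zero]
  have hDp : p • (-P + σ P) = 0 := by
    rw [nsmul_add, ← map_nsmul, hPp, map_zero, smul_neg, hPp, neg_zero, add_zero]
  obtain ⟨L, hL1, hL2, hXD⟩ := C.add (-P) (σ P) (neg_ne_zero.mpr hP) hσ0 hD
  rw [C.X_neg, C.Y_neg, hσX, hσY] at hL1 hL2
  rw [C.X_neg, hσX] at hXD
  rw [sub_neg_eq_add] at hL1
  rw [neg_add_eq_sub] at hL2
  have hLbig : 1 < v L := by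
    by_contra hle
    push Not at hle
    rcases hbig with hb | hb
    · rw [← hL1, map_mul] at hb
      exact not_lt.mpr (mul_le_of_le_one_left zero_le hle) hb
    · rw [← hL2, map_mul] at hb
      exact not_lt.mpr (mul_le_of_le_one_left zero_le hle) hb
  have hmem : L ^ 2 ∈ A := by
    have := X_mem_of_torsion C hp hp2 hpA hc2 hc4 hD hDp
    rw [hXD] at this
    have h' := add_mem (add_mem (add_mem this hτX) hX) hc2
    convert h' using 1
    ring
  rw [← A.valuation_le_one_iff, map_pow] at hmem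
  exact absurd ((pow_le_one_iff_of_nonneg zero_le two_ne_zero).mp hmem) (not_le.mpr hLbig)

/-- A point with nonsingular reduction is fixed. -/
lemma fixed_of_smooth (hp : p.Prime) (hp2 : p ≠ 2) (hpA : v (p : K) = 1) (h2A : v (2 : K) = 1)
    (hσ : ∀ Q, Q ≠ 0 → σ Q ≠ 0 ∧ C.X (σ Q) = τ (C.X Q) ∧ C.Y (σ Q) = τ (C.Y Q))
    (hτ : Congr A τ)
    {e f : K} (he : e ∈ A) (hf : f ∈ A) (hc2 : C.c2 = -(e + f)) (hc4 : C.c4 = e * f)
    {P : G} (hP : P ≠ 0) (hPp : p • P = 0) (hX : C.X P ∈ A)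
    (hsmooth : (v e = 1 ∧ v f = 1 ∧ v (e - f) = 1) ∨ (v (C.X P) = 1 ∧ v e < 1 ∧ v f = 1)) :
    σ P = P := by
  have hc2A : C.c2 ∈ A := hc2 ▸ neg_mem (add_mem he hf)
  have hc4A : C.c4 ∈ A := hc4 ▸ mul_mem he hf
  have hY : C.Y P ∈ A := Y_mem C hc2A hc4A hP hX
  have hτX : τ (C.X P) ∈ A := by
    have := add_mem ((A.valuation_le_one_iff _).mp (hτ _ hX).le) hX
    simpa using this
  refine fixed_of_slope C σ τ hp hp2 hpA hσ hc2A hc4A hP hPp hX hτX ?_
  rcases ((A.valuation_le_one_iff _).mpr hY).lt_or_eq with hy | hy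
  · -- the reduction is a simple root of the cubic
    right
    refine (hτ _ hY).trans_le (le_of_eq (Eq.symm ?_))
    have hprod : v (C.X P) * v (C.X P - e) * v (C.X P - f) < 1 := by
      rw [← valuation_root_cases C hc2 hc4 hP]
      exact pow_lt_one₀ zero_le hy two_ne_zero
    have hε : ∀ r₀ : K, v (C.X P - r₀) < 1 → v (τ (C.X P) - r₀) < 1 := by
      intro r₀ hr
      have := Valuation.map_add_lt v (hτ _ hX) hr
      rwa [sub_add_sub_cancel] at this
    have simple : ∀ r₀ g : K, r₀ ∈ A → v (C.X P - r₀) < 1 →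
        (3 * r₀ ^ 2 - 2 * (e + f) * r₀ + e * f = g) → v g = 1 →
        v (C.X P ^ 2 + C.X P * τ (C.X P) + τ (C.X P) ^ 2
          + C.c2 * (C.X P + τ (C.X P)) + C.c4) = 1 := by
      intro r₀ g hr hr1 hg hg1
      set a := C.X P - r₀ with ha
      set b := τ (C.X P) - r₀ with hb
      have hb1 : v b < 1 := hε r₀ hr1
      have haA : a ∈ A := (A.valuation_le_one_iff _).mp hr1.le
      have hbA : b ∈ A := (A.valuation_le_one_iff _).mp hb1.le
      have hsmall : ((a + b) * (3 * r₀ - (e + f)) + (a * a + a * b + b * b)) ∈ A.nonunits := by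
        have ma : a ∈ A.nonunits := hr1
        have mb : b ∈ A.nonunits := hb1
        refine add_mem ?_ (add_mem (add_mem (mul_mem ma ma) (mul_mem ma mb)) (mul_mem mb mb))
        rw [ValuationSubring.mem_nonunits_iff, map_mul]
        refine mul_lt_one_of_nonneg_of_lt_one_left zero_le (add_mem ma mb) ?_
        exact (A.valuation_le_one_iff _).mpr
          (sub_mem (mul_mem (natCast_mem A 3) hr) (add_mem he hf))
      rw [ValuationSubring.mem_nonunits_iff] at hsmall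
      rw [show C.X P ^ 2 + C.X P * τ (C.X P) + τ (C.X P) ^ 2
          + C.c2 * (C.X P + τ (C.X P)) + C.c4 =
          g + ((a + b) * (3 * r₀ - (e + f)) + (a * a + a * b + b * b)) by
        rw [ha, hb, hc2, hc4, ← hg]; ring]
      rw [Valuation.map_add_eq_of_lt_left _ (by rwa [hg1]), hg1]
    rcases hsmooth with ⟨he1, hf1, hef⟩ | ⟨hX1, he1, hf1⟩
    · rcases lt_or_ge (v (C.X P)) 1 with h0 | h0
      · refine simple 0 (e * f) A.zero_mem (by simpa using h0) (by ring) ?_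
        rw [map_mul, he1, hf1, one_mul]
      rcases lt_or_ge (v (C.X P - e)) 1 with h1 | h1
      · refine simple e (e * (e - f)) he h1 (by ring) ?_
        rw [map_mul, he1, hef, one_mul]
      rcases lt_or_ge (v (C.X P - f)) 1 with h2 | h2
      · refine simple f (f * (f - e)) hf h2 (by ring) ?_
        rw [map_mul, hf1, Valuation.map_sub_swap, hef, one_mul]
      exact absurd hprod (not_lt.mpr (one_le_mul (one_le_mul h0 h1) h2))
    · have h1 : v (C.X P - e) = 1 := by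
        rw [Valuation.map_sub_eq_of_lt_left _ (by rwa [hX1]), hX1]
      refine simple f (f * (f - e)) hf ?_ (by ring) ?_
      · rwa [hX1, h1, one_mul, one_mul] at hprod
      · rw [map_mul, Valuation.map_sub_eq_of_lt_left _ (by rwa [hf1]), hf1, one_mul]
  · -- `Y` is a unit
    left
    refine (hτ _ hX).trans_le (le_of_eq (Eq.symm ?_))
    rw [show τ (C.Y P) + C.Y P = 2 * C.Y P + (τ (C.Y P) - C.Y P) by ring,
      Valuation.map_add_eq_of_lt_left _ (by rw [map_mul, h2A, hy, one_mul]; exact hτ _ hY),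
      map_mul, h2A, hy, one_mul]

/-- A point at least as deep as `e` is fixed: its double has unit abscissa. -/
lemma fixed_of_deep (hp : p.Prime) (hp2 : p ≠ 2) (hpA : v (p : K) = 1) (h2A : v (2 : K) = 1)
    (hσ : ∀ Q, Q ≠ 0 → σ Q ≠ 0 ∧ C.X (σ Q) = τ (C.X Q) ∧ C.Y (σ Q) = τ (C.Y Q))
    (hτ : Congr A τ)
    {e f : K} (he : e ∈ A) (hf : f ∈ A) (hc2 : C.c2 = -(e + f)) (hc4 : C.c4 = e * f)
    (he0 : e ≠ 0) (he1 : v e < 1) (hf1 : v f = 1)
    {Q : G} (hQ : Q ≠ 0) (hQp : p • Q = 0) (hdeep : v (C.X Q) ≤ v e) : σ Q = Q := by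
  have hc2A : C.c2 ∈ A := hc2 ▸ neg_mem (add_mem he hf)
  have hc4A : C.c4 ∈ A := hc4 ▸ mul_mem he hf
  have hp3 : 3 ≤ p := by have := hp.two_le; omega
  have ve0 : 0 < v e := zero_lt_iff.mpr ((map_ne_zero _).mpr he0)
  have h2ne : Q + Q ≠ 0 := by
    rw [← two_nsmul]; exact nsmul_ne_zero_of_lt hp hQ hQp (by omega) (by omega)
  have h2p : p • (Q + Q) = 0 := by rw [nsmul_add, hQp, add_zero]
  have e2 := C.X_two_mul hQ h2ne
  set t := C.X Q / e with ht
  have htA : t ∈ A := by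
    rw [← A.valuation_le_one_iff, ht, map_div₀]; exact (div_le_one₀ ve0).mpr hdeep
  have hXt : C.X Q = e * t := by rw [ht, mul_div_cancel₀ _ he0]
  have heq : C.X (Q + Q) * (4 * (t * (t - 1) * (e * t - f))) = (e * t ^ 2 - f) ^ 2 := by
    apply mul_left_cancel₀ (pow_ne_zero 2 he0)
    rw [C.eqn Q hQ, hXt, hc2, hc4] at e2
    linear_combination e2
  have hv := congrArg v heq
  rw [map_mul, map_pow] at hv
  have hnum : v (e * t ^ 2 - f) = 1 := by
    rw [Valuation.map_sub_eq_of_lt_right _ ?_, hf1]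
    rw [hf1, map_mul]
    exact mul_lt_one_of_nonneg_of_lt_one_left zero_le he1
      ((A.valuation_le_one_iff _).mpr (pow_mem htA 2))
  rw [hnum, one_pow] at hv
  have hR : v (4 * (t * (t - 1) * (e * t - f))) ≤ 1 := (A.valuation_le_one_iff _).mpr
    (mul_mem (natCast_mem A 4) (mul_mem (mul_mem htA (sub_mem htA A.one_mem))
      (sub_mem (mul_mem he htA) hf)))
  have hle : v (C.X (Q + Q)) ≤ 1 :=
    (A.valuation_le_one_iff _).mpr (X_mem_of_torsion C hp hp2 hpA hc2A hc4A h2ne h2p)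
  have hge : 1 ≤ v (C.X (Q + Q)) := by
    calc (1 : A.ValueGroup) = _ := hv.symm
      _ ≤ v (C.X (Q + Q)) := mul_le_of_le_one_right zero_le hR
  apply fixed_of_nsmul_fixed hp hQp σ (k := 2) (by omega) (by omega)
  rw [two_nsmul]
  exact fixed_of_smooth C σ τ hp hp2 hpA h2A hσ hτ he hf hc2 hc4 h2ne h2p
    ((A.valuation_le_one_iff _).mp hle) (Or.inr ⟨le_antisymm hle hge, he1, hf1⟩)

/-- If `P` is not fixed, all its multiples reduce to the node. -/
lemma valuation_X_of_not_fixed (hp : p.Prime) (hp2 : p ≠ 2) (hpA : v (p : K) = 1)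
    (h2A : v (2 : K) = 1)
    (hσ : ∀ Q, Q ≠ 0 → σ Q ≠ 0 ∧ C.X (σ Q) = τ (C.X Q) ∧ C.Y (σ Q) = τ (C.Y Q))
    (hτ : Congr A τ)
    {e f : K} (he : e ∈ A) (hf : f ∈ A) (hc2 : C.c2 = -(e + f)) (hc4 : C.c4 = e * f)
    (he0 : e ≠ 0) (he1 : v e < 1) (hf1 : v f = 1)
    {P : G} (hP : P ≠ 0) (hPp : p • P = 0) (hne : σ P ≠ P) {k : ℕ} (hk : 1 ≤ k) (hkp : k < p) :
    v e < v (C.X (k • P)) ∧ v (C.X (k • P)) < 1 := by
  have hk0 := nsmul_ne_zero_of_lt hp hP hPp (by omega : 0 < k) hkp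
  have hkp' : p • (k • P) = 0 := by rw [smul_comm, hPp, smul_zero]
  have hX : C.X (k • P) ∈ A := X_mem_of_torsion C hp hp2 hpA (hc2 ▸ neg_mem (add_mem he hf))
    (hc4 ▸ mul_mem he hf) hk0 hkp'
  have hfix := fixed_of_nsmul_fixed hp hPp σ (by omega : 0 < k) hkp
  refine ⟨lt_of_not_ge fun h => hne (hfix
    (fixed_of_deep C σ τ hp hp2 hpA h2A hσ hτ he hf hc2 hc4 he0 he1 hf1 hk0 hkp' h)), ?_⟩
  exact lt_of_le_of_ne ((A.valuation_le_one_iff _).mpr hX) fun h => hne (hfix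
    (fixed_of_smooth C σ τ hp hp2 hpA h2A hσ hτ he hf hc2 hc4 hk0 hkp' hX
      (Or.inr ⟨h, he1, hf1⟩)))

/-- The order of `X(2P)` when `v Y = v X`. -/
lemma ordA_X_two_mul (h2A : v (2 : K) = 1) {P : G} (hP : P ≠ 0) (h2ne : P + P ≠ 0)
    (hz : C.X (2 • P) ≠ 0) (hx0 : C.X P ≠ 0) (hY0 : C.Y P ≠ 0) (hvY : v (C.Y P) = v (C.X P)) :
    C.X P ^ 2 - C.c4 ≠ 0 ∧
      ordA A (C.X (2 • P)) = ordA A (C.X P ^ 2 - C.c4) + ordA A (C.X P ^ 2 - C.c4) -
        (ordA A (C.X P) + ordA A (C.X P)) := by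
  have e2 := C.X_two_mul hP h2ne
  rw [← two_nsmul] at e2
  have h4 : (4 : K) ≠ 0 := by
    intro h0
    have : v ((2 : K) * 2) = 0 := by rw [show (2 : K) * 2 = 4 by norm_num, h0, map_zero]
    rw [map_mul, h2A, one_mul] at this; exact one_ne_zero this
  have hlhs := mul_ne_zero hz (mul_ne_zero h4 (pow_ne_zero 2 hY0))
  have hn : C.X P ^ 2 - C.c4 ≠ 0 := fun h0 => hlhs (by rw [e2, h0]; ring)
  have ho := congrArg (ordA A) e2
  rw [ordA_mul hz (mul_ne_zero h4 (pow_ne_zero 2 hY0)), sq (C.X P ^ 2 - C.c4), ordA_mul hn hn,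
    ordA_mul h4 (pow_ne_zero 2 hY0), sq (C.Y P), ordA_mul hY0 hY0] at ho
  have h40 : ordA A (4 : K) = 0 := by
    rw [← ordA_one (A := A), ordA_eq_ordA h4 one_ne_zero, map_one,
      show (4 : K) = 2 * 2 by norm_num, map_mul, h2A, one_mul]
  rw [h40, zero_add, (ordA_eq_ordA hY0 hx0).mpr hvY] at ho
  exact ⟨hn, eq_sub_of_add_eq ho⟩

/-- The sum of the orders of `X(P + Q)` and `X(P - Q)`. -/
lemma ordA_X_add_sub {P Q : G} (hP : P ≠ 0) (hQ : Q ≠ 0) (hne : C.X P ≠ C.X Q)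
    (hp1 : C.X (P + Q) ≠ 0) (hm1 : C.X (P - Q) ≠ 0) :
    C.X P * C.X Q - C.c4 ≠ 0 ∧
      ordA A (C.X (P + Q)) + ordA A (C.X (P - Q)) =
        ordA A (C.X P * C.X Q - C.c4) + ordA A (C.X P * C.X Q - C.c4) -
          (ordA A (C.X P - C.X Q) + ordA A (C.X P - C.X Q)) := by
  have ep := C.X_add_mul_sub hP hQ hne
  have hd0 : C.X P - C.X Q ≠ 0 := sub_ne_zero.mpr hne
  have hd0' : C.X Q - C.X P ≠ 0 := sub_ne_zero.mpr (Ne.symm hne)
  have hn : C.X P * C.X Q - C.c4 ≠ 0 := fun h0 =>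
    mul_ne_zero (mul_ne_zero hp1 hm1) (pow_ne_zero 2 hd0') (by rw [ep, h0]; ring)
  have ho := congrArg (ordA A) ep
  rw [sq (C.X P * C.X Q - C.c4), ordA_mul hn hn, sq (C.X Q - C.X P),
    ordA_mul (mul_ne_zero hp1 hm1) (mul_ne_zero hd0' hd0'), ordA_mul hp1 hm1,
    ordA_mul hd0' hd0', (ordA_eq_ordA hd0' hd0).mpr (Valuation.map_sub_swap _ _ _)] at ho
  exact ⟨hn, eq_sub_of_add_eq ho⟩

/-- If every multiple of `P` reduces to the node, then `p • ord X(P) ∈ 2ℤ • ord e`. -/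
lemma exists_ordA_X_pow (hp : p.Prime) (hp3 : 3 ≤ p) (h2A : v (2 : K) = 1) {e f : K}
    (he0 : e ≠ 0) (hf1 : v f = 1) (hc4 : C.c4 = e * f) {P : G} (hP : P ≠ 0) (hPp : p • P = 0)
    (hrange : ∀ k, 1 ≤ k → k < p → v e < v (C.X (k • P)) ∧ v (C.X (k • P)) < 1)
    (hvY : v (C.Y P) = v (C.X P)) :
    ∃ m : ℤ, (p : ℤ) • ordA A (C.X P) = (m + m) • ordA A e := by
  have hX0 : ∀ k, 1 ≤ k → k < p → C.X (k • P) ≠ 0 := fun k hk hkp h0 => by
    have h := (hrange k hk hkp).1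
    rw [h0, map_zero] at h
    exact not_lt.mpr zero_le h
  have hx0 : C.X P ≠ 0 := by simpa using hX0 1 le_rfl (by omega)
  have hY0 : C.Y P ≠ 0 := fun h0 => hx0 (by
    rwa [← map_eq_zero (A.valuation), ← hvY, map_eq_zero])
  have hef0 : C.c4 ≠ 0 := hc4 ▸ mul_ne_zero he0 (fun h => by
    rw [h, map_zero] at hf1; exact zero_ne_one hf1)
  have hd : ordA A C.c4 = ordA A e :=
    (ordA_eq_ordA hef0 he0).mpr (by rw [hc4, map_mul, hf1, mul_one])
  refine component_recursion p hp3 (ordA A (C.X P)) (ordA A e) (fun k => ordA A (C.X (k • P)))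
    (fun k hk hkp => ⟨?_, (ordA_lt_ordA (hX0 k hk hkp) he0).mpr (hrange k hk hkp).1⟩)
    (by rw [one_nsmul]) ?_ ?_ fun k hk hkp => ?_
  · rw [← ordA_one (A := A), ordA_lt_ordA one_ne_zero (hX0 k hk hkp), map_one]
    exact (hrange k hk hkp).2
  · have : (p - 1) • P = -P := eq_neg_of_add_eq_zero_left (by
      rw [← succ_nsmul, show p - 1 + 1 = p by omega, hPp])
    rw [this, C.X_neg]
  · obtain ⟨hn, e2⟩ := ordA_X_two_mul C h2A hP
      (by rw [← two_nsmul]; exact nsmul_ne_zero_of_lt hp hP hPp (by omega) (by omega))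
      (hX0 2 (by omega) (by omega)) hx0 hY0 hvY
    obtain ⟨g1, g2, g3⟩ := ordA_sub_cases (A := A) (pow_ne_zero 2 hx0) hef0 hn
    rw [hd, sq, ordA_mul hx0 hx0, ← sq] at g1 g2 g3
    exact ⟨_, e2, g1, g2, g3⟩
  · have hz := hX0 k (by omega) (by omega)
    have hne : C.X (k • P) ≠ C.X P := X_ne_of_ne C hp hP hPp hk hkp
    have eminus : k • P - P = (k - 1) • P := by
      rw [sub_eq_iff_eq_add, ← succ_nsmul]; congr 1; omega
    obtain ⟨hn, ho⟩ := ordA_X_add_sub (A := A) C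
      (nsmul_ne_zero_of_lt hp hP hPp (by omega) (by omega)) hP hne
      (by rw [← succ_nsmul]; exact hX0 (k + 1) (by omega) (by omega))
      (by rw [eminus]; exact hX0 (k - 1) (by omega) (by omega))
    rw [← succ_nsmul, eminus] at ho
    obtain ⟨g1, g2, g3⟩ := ordA_sub_cases (A := A) (mul_ne_zero hz hx0) hef0 hn
    obtain ⟨i1, i2, i3⟩ := ordA_sub_cases (A := A) hz hx0 (sub_ne_zero.mpr hne)
    rw [hd, ordA_mul hz hx0] at g1 g2 g3
    exact ⟨_, _, ho, g1, g2, g3, i1, i2, i3⟩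

omit [AddCommGroup G] in
/-- If `p • ord x = 2m • ord e` and `e` has the valuation of `aᵖ`, then `x` has that of `a²ᵐ`. -/
lemma valuation_eq_zpow (hp0 : p ≠ 0) {x e a : K} (hx0 : x ≠ 0) (he0 : e ≠ 0) (ha0 : a ≠ 0)
    (hea : v e = v a ^ p) {m : ℤ} (hm : (p : ℤ) • ordA A x = (m + m) • ordA A e) :
    v x = v (a ^ (m + m)) := by
  refine (pow_left_inj₀ zero_le zero_le hp0).mp ?_
  rw [← map_pow, ← map_pow, ← ordA_eq_ordA (pow_ne_zero p hx0)
    (pow_ne_zero p (zpow_ne_zero _ ha0))]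
  have hd : ordA A e = ordA A (a ^ p) :=
    (ordA_eq_ordA he0 (pow_ne_zero p ha0)).mpr (by rw [map_pow]; exact hea)
  rw [← zpow_natCast x p, ordA_zpow hx0, hm, hd, ← ordA_zpow (pow_ne_zero p ha0)]
  congr 1
  rw [← zpow_natCast a p, ← zpow_natCast (a ^ (m + m)) p, ← zpow_mul, ← zpow_mul, mul_comm]

/-- Inertia fixes `p`-torsion, for good reduction or nodal reduction whose length is twice a
multiple of `p`. -/
theorem fixed_of_torsion (hp : p.Prime) (hp2 : p ≠ 2) (hpA : v (p : K) = 1) (h2A : v (2 : K) = 1)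
    (hσ : ∀ Q, Q ≠ 0 → σ Q ≠ 0 ∧ C.X (σ Q) = τ (C.X Q) ∧ C.Y (σ Q) = τ (C.Y Q))
    (hτ : Congr A τ)
    {e f : K} (he : e ∈ A) (hf : f ∈ A) (hc2 : C.c2 = -(e + f)) (hc4 : C.c4 = e * f)
    (hcase : (v e = 1 ∧ v f = 1 ∧ v (e - f) = 1) ∨
      (e ≠ 0 ∧ v e < 1 ∧ v f = 1 ∧ ∃ a : K, a ≠ 0 ∧ τ a = a ∧ v e = v a ^ p))
    {P : G} (hP : P ≠ 0) (hPp : p • P = 0) : σ P = P := by
  have hc2A : C.c2 ∈ A := hc2 ▸ neg_mem (add_mem he hf)
  have hc4A : C.c4 ∈ A := hc4 ▸ mul_mem he hf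
  rcases hcase with hgood | ⟨he0, he1, hf1, a, ha0, haτ, hea⟩
  · exact fixed_of_smooth C σ τ hp hp2 hpA h2A hσ hτ he hf hc2 hc4 hP hPp
      (X_mem_of_torsion C hp hp2 hpA hc2A hc4A hP hPp) (Or.inl hgood)
  have hp3 : 3 ≤ p := by have := hp.two_le; omega
  by_contra hne
  have hrange : ∀ k, 1 ≤ k → k < p → v e < v (C.X (k • P)) ∧ v (C.X (k • P)) < 1 := fun _ =>
    valuation_X_of_not_fixed C σ τ hp hp2 hpA h2A hσ hτ he hf hc2 hc4 he0 he1 hf1 hP hPp hne
  obtain ⟨hP1, hP2⟩ := hrange 1 le_rfl (by omega)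
  rw [one_nsmul] at hP1 hP2
  have hx0 : C.X P ≠ 0 := fun h0 => by rw [h0, map_zero] at hP1; exact not_lt.mpr zero_le hP1
  have hvY : v (C.Y P) = v (C.X P) := by
    refine (pow_left_inj₀ zero_le zero_le two_ne_zero).mp ?_
    rw [valuation_root_cases C hc2 hc4 hP, Valuation.map_sub_eq_of_lt_left _ hP1,
      Valuation.map_sub_eq_of_lt_right _ (by rw [hf1]; exact hP2), hf1, mul_one, sq]
  obtain ⟨m, hm⟩ := exists_ordA_X_pow C hp hp3 h2A he0 hf1 hc4 hP hPp hrange hvY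
  -- so `X` has the valuation of a fixed element
  have hvπ : v (C.X P) = v (a ^ (m + m)) := valuation_eq_zpow hp.ne_zero hx0 he0 ha0 hea hm
  set π := a ^ (m + m) with hπdef
  have hπ0 : π ≠ 0 := zpow_ne_zero _ ha0
  have hπτ : τ π = π := by rw [hπdef, map_zpow₀, haτ]
  have hX : C.X P ∈ A := (A.valuation_le_one_iff _).mp hP2.le
  have hτX : τ (C.X P) ∈ A := by
    have := add_mem ((A.valuation_le_one_iff _).mp (hτ _ hX).le) hX
    simpa using this
  refine hne (fixed_of_slope C σ τ hp hp2 hpA hσ hc2A hc4A hP hPp hX hτX (Or.inl ?_))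
  have hdY := hτ.lt_of_fixed_scale hπ0 hπτ (hvY.trans hvπ).le
  have h2Y : v (2 * C.Y P) = v π := by rw [map_mul, h2A, one_mul, hvY, hvπ]
  rw [show τ (C.Y P) + C.Y P = 2 * C.Y P + (τ (C.Y P) - C.Y P) by ring,
    Valuation.map_add_eq_of_lt_left _ (by rwa [h2Y]), h2Y]
  exact hτ.lt_of_fixed_scale hπ0 hπτ hvπ.le

end Main

end Fermat.Agent.FreyUnramified
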